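import Mathlib

/-!
# The theorem of Erdős and Gallai on degree sequences

Choudum's proof: lower a first block entry and the last positive one, then undo by an exchange.
-/

set_option autoImplicit false

noncomputable section

namespace FA.DegreeSequence

open Finset
open scoped Classical

variable {n : ℕ}

/-- The degree of a vertex. -/
def deg (G : SimpleGraph (Fin n)) (v : Fin n) : ℕ := (univ.filter fun w => G.Adj v w).card

lemma deg_sup_edge (G : SimpleGraph (Fin n)) {a b : Fin n} (hab : a ≠ b) (h : ¬ G.Adj a b)
    (v : Fin n) : deg (G ⊔ SimpleGraph.edge a b) v =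
      deg G v + (if v = a then 1 else 0) + (if v = b then 1 else 0) := by
  have hadj : ∀ w, (G ⊔ SimpleGraph.edge a b).Adj v w ↔
      G.Adj v w ∨ (v = a ∧ w = b) ∨ (v = b ∧ w = a) := by
    intro w
    simp only [SimpleGraph.sup_adj, SimpleGraph.edge_adj]
    refine or_congr_right ⟨fun h => h.1, fun h => ⟨h, ?_⟩⟩
    rcases h with ⟨rfl, rfl⟩ | ⟨rfl, rfl⟩
    · exact hab
    · exact hab.symm
  unfold deg
  simp only [hadj]
  by_cases hva : v = a
  · subst hva
    rw [if_pos rfl, if_neg hab, Nat.add_zero,
      ← card_insert_of_notMem (a := b) (s := univ.filter fun w => G.Adj v w) (by simpa using h)]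
    congr 1
    ext w
    simp [hab]
    tauto
  · by_cases hvb : v = b
    · subst hvb
      rw [if_neg hva, if_pos rfl, Nat.add_zero,
        ← card_insert_of_notMem (a := a) (s := univ.filter fun w => G.Adj v w)
          (by simpa using fun e => h (G.symm.symm _ _ e))]
      congr 1
      ext w
      simp [hva]
      tauto
    · simp [hva, hvb]

lemma deg_deleteEdge (G : SimpleGraph (Fin n)) {a b : Fin n} (h : G.Adj a b) (v : Fin n) :
    deg G v = deg (G.deleteEdges {s(a, b)}) v + (if v = a then 1 else 0) +
      (if v = b then 1 else 0) := by
  conv_lhs => rw [show G = G.deleteEdges {s(a, b)} ⊔ SimpleGraph.edge a b by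
    ext x y
    simp only [SimpleGraph.sup_adj, SimpleGraph.deleteEdges_adj, SimpleGraph.edge_adj,
      Set.mem_singleton_iff, Sym2.eq_iff]
    constructor
    · intro hxy
      by_cases hc : x = a ∧ y = b ∨ x = b ∧ y = a
      · exact Or.inr ⟨hc, hxy.ne⟩
      · exact Or.inl ⟨hxy, hc⟩
    · rintro (⟨hxy, -⟩ | ⟨(⟨rfl, rfl⟩ | ⟨rfl, rfl⟩), -⟩)
      · exact hxy
      · exact h
      · exact h.symm]
  exact deg_sup_edge _ h.ne (by simp [SimpleGraph.deleteEdges_adj]) v

/-- Choudum's exchange: raise the degrees of `t` and `l` by one. -/
lemma exists_raise {G : SimpleGraph (Fin n)} {m : ℕ} {t l : Fin n} (htl : t ≠ l)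
    (ht : t.val < m)
    (hdt : deg G t + 2 ≤ m) (hmn : m ≤ n)
    (hmin : ∀ w : Fin n, w.val < m → w ≠ t → w ≠ l → deg G l < deg G w) :
    ∃ H : SimpleGraph (Fin n), ∀ v,
      deg H v = deg G v + (if v = t then 1 else 0) + (if v = l then 1 else 0) := by
  by_cases hadj : G.Adj t l
  swap
  · exact ⟨_, deg_sup_edge G htl hadj⟩
  obtain ⟨w, hw, hwt, hnadj⟩ : ∃ w : Fin n, w.val < m ∧ w ≠ t ∧ ¬ G.Adj t w := by
    by_contra hno
    push Not at hno
    have hsub : (univ.filter fun w : Fin n => w.val < m).erase t ⊆
        univ.filter fun w => G.Adj t w := fun w hw => by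
      simp only [mem_erase, mem_filter, mem_univ, true_and] at hw ⊢
      exact hno w hw.2 hw.1
    have hcard : (univ.filter fun w : Fin n => w.val < m).card = m := by
      rw [show (univ.filter fun w : Fin n => w.val < m) = univ.map (Fin.castLEEmb hmn) by
        ext w
        simp only [mem_filter, mem_univ, true_and, mem_map]
        exact ⟨fun h => ⟨⟨w.val, h⟩, rfl⟩, by rintro ⟨y, rfl⟩; exact y.isLt⟩, card_map,
        card_univ, Fintype.card_fin]
    have := card_le_card hsub
    rw [card_erase_of_mem (by simp [ht]), hcard] at this
    unfold deg at hdt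
    omega
  have hwl : w ≠ l := by
    rintro rfl
    exact hnadj hadj
  have hlt := hmin w hw hwt hwl
  obtain ⟨u, hu, hul, hnu⟩ : ∃ u, G.Adj w u ∧ u ≠ l ∧ ¬ G.Adj l u := by
    by_contra hno
    push Not at hno
    have hsub : (univ.filter fun u => G.Adj w u).erase l ⊆
        (univ.filter fun u => G.Adj l u).erase w := fun u hu => by
      simp only [mem_erase, mem_filter, mem_univ, true_and] at hu ⊢
      exact ⟨hu.2.ne.symm, hno u hu.2 hu.1⟩
    have := card_le_card hsub
    unfold deg at hlt
    by_cases hwlA : G.Adj w l
    · rw [card_erase_of_mem (by simp [hwlA]), card_erase_of_mem (by simp [hwlA.symm])] at this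
      have : 0 < (univ.filter fun u => G.Adj l u).card := card_pos.2 ⟨w, by simp [hwlA.symm]⟩
      omega
    · rw [erase_eq_of_notMem (by simp [hwlA]),
        erase_eq_of_notMem (by simpa using fun e => hwlA (G.symm.symm _ _ e))] at this
      omega
  have hut : u ≠ t := by
    rintro rfl
    exact hnadj hu.symm
  let G₁ := G.deleteEdges {s(w, u)}
  have h1 : ¬ G₁.Adj t w := fun e => hnadj (SimpleGraph.deleteEdges_adj.1 e).1
  have h2 : ¬ (G₁ ⊔ SimpleGraph.edge t w).Adj l u := by
    simp only [G₁, SimpleGraph.sup_adj, SimpleGraph.deleteEdges_adj, SimpleGraph.edge_adj]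
    rintro (⟨e, -⟩ | ⟨(⟨rfl, rfl⟩ | ⟨rfl, rfl⟩), -⟩)
    · exact hnu e
    · exact htl rfl
    · exact hwl rfl
  refine ⟨G₁ ⊔ SimpleGraph.edge t w ⊔ SimpleGraph.edge l u, fun v => ?_⟩
  rw [deg_sup_edge _ (Ne.symm hul) h2, deg_sup_edge _ (Ne.symm hwt) h1, deg_deleteEdge G hu v]
  ring

/-- The conditions of Erdős and Gallai. -/
def Cond (n : ℕ) (d : ℕ → ℕ) : Prop :=
  ∀ k ≤ n, ∑ i ∈ range k, d i ≤ k * (k - 1) + ∑ i ∈ Ico k n, min (d i) k

lemma sum_ite_eq_one (s : Finset ℕ) (a : ℕ) :
    ∑ i ∈ s, (if i = a then (1 : ℕ) else 0) = if a ∈ s then 1 else 0 := by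
  rw [sum_ite_eq']

lemma not_equality {k q r D A : ℕ} (hk : 1 ≤ k) (hD : 1 ≤ D)
    (h1 : k * q = k * (k - 1) + (r * k + D))
    (h2 : (k + 1) * q ≤ (k + 1) * k + A) (h3 : A + (k + 1) ≤ r * (k + 1) + D) : False := by
  obtain ⟨j, rfl⟩ := Nat.exists_eq_add_of_le hk
  rw [show 1 + j - 1 = j by omega] at h1
  zify at h1 h2 h3 hD
  obtain ⟨x, hx⟩ : ∃ x : ℤ, x = (q : ℤ) - j - r := ⟨_, rfl⟩
  have e1 : (1 + (j : ℤ)) * x = D := by rw [hx]; linear_combination h1
  have e2 : (2 + (j : ℤ)) * x ≤ D := by rw [hx]; nlinarith
  have hx0 : x ≤ 0 := by nlinarith
  nlinarith [Int.natCast_nonneg j]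

lemma mul_pred_even (k : ℕ) : Even ((k + 1) * k) := by
  rw [mul_comm]; exact Nat.even_mul_succ_self k

/-- **Erdős and Gallai**, sufficiency. -/
theorem realisable : ∀ (S : ℕ) (d : ℕ → ℕ), ∑ i ∈ range n, d i = S → Even S →
    (∀ i j, i ≤ j → j < n → d j ≤ d i) → Cond n d →
    ∃ G : SimpleGraph (Fin n), ∀ v, deg G v = d v.val := by
  intro S
  induction S using Nat.strong_induction_on with
  | _ S ih =>
    intro d hsum heven hanti hcond
    by_cases hS : S = 0
    · refine ⟨⊥, fun v => ?_⟩
      subst hS
      rw [sum_eq_zero_iff] at hsum
      rw [hsum v.val (mem_range.2 v.isLt)]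
      simp [deg]
    -- the positive entries are those of index below `m`
    have hex : ∃ i, n ≤ i ∨ d i = 0 := ⟨n, Or.inl le_rfl⟩
    obtain ⟨m, hmdef⟩ : ∃ m, m = Nat.find hex := ⟨_, rfl⟩
    have hmn : m ≤ n := hmdef ▸ Nat.find_min' hex (Or.inl le_rfl)
    have hpos : ∀ i < m, 1 ≤ d i := fun i hi => by
      have := Nat.find_min hex (hmdef ▸ hi)
      omega
    have hzero : ∀ i, m ≤ i → i < n → d i = 0 := fun i hi hin => by
      rcases Nat.find_spec hex with h | h
      · omega
      · have := hanti m i hi hin
        rw [← hmdef] at h
        omega
    have hm1 : 1 ≤ m := by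
      by_contra h
      refine hS (hsum ▸ sum_eq_zero fun i hi => hzero i (by omega) (mem_range.1 hi))
    have hd0 : d 0 + 1 ≤ m := by
      have h := hcond 1 (by omega)
      rw [sum_range_one, ← sum_subset (s₁ := Ico 1 m) (Ico_subset_Ico_right hmn)
        (fun i hi hi' => by
          simp only [mem_Ico] at hi hi'
          rw [hzero i (by omega) hi.2]
          rfl)] at h
      have hle : ∑ i ∈ Ico 1 m, min (d i) 1 ≤ ∑ _i ∈ Ico 1 m, 1 :=
        sum_le_sum fun i _ => min_le_right _ _
      rw [sum_const, Nat.card_Ico, smul_eq_mul, mul_one] at hle
      omega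
    have hm2 : 2 ≤ m := by
      have := hpos 0 (by omega)
      omega
    -- the first descent
    have hex2 : ∃ i, m ≤ i + 2 ∨ d (i + 1) < d i := ⟨m, Or.inl (by omega)⟩
    obtain ⟨t, htdef⟩ : ∃ t, t = Nat.find hex2 := ⟨_, rfl⟩
    have htm : t + 2 ≤ m := by
      have := Nat.find_min' hex2 (m := m - 2) (Or.inl (by omega))
      omega
    have hblock : ∀ i ≤ t, d i = d 0 := by
      intro i hi
      induction i with
      | zero => rfl
      | succ i ihi =>
        have h := Nat.find_min hex2 (m := i) (by omega)
        have := hanti i (i + 1) (by omega) (by omega)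
        have := ihi (by omega)
        omega
    have htspec : m ≤ t + 2 ∨ d (t + 1) < d t := htdef ▸ Nat.find_spec hex2
    obtain ⟨l, hl⟩ : ∃ l, l + 1 = m := ⟨m - 1, by omega⟩
    obtain ⟨e, hedef⟩ : ∃ e : ℕ → ℕ, ∀ i, e i = if i = t ∨ i = l then d i - 1 else d i :=
      ⟨_, fun _ => rfl⟩
    have hde : ∀ i, d i = e i + ((if i = t then 1 else 0) + (if i = l then 1 else 0)) := by
      intro i
      rw [hedef]
      by_cases h1 : i = t
      · have := hpos i (by omega)
        rw [if_pos (Or.inl h1), if_pos h1, if_neg (by omega)]
        omega
      · by_cases h2 : i = l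
        · have := hpos i (by omega)
          rw [if_pos (Or.inr h2), if_neg h1, if_pos h2]
          omega
        · rw [if_neg (by tauto), if_neg h1, if_neg h2]
          simp
    have hanti' : ∀ i j, i ≤ j → j < n → e j ≤ e i := by
      intro i j hij hjn
      rcases hij.eq_or_lt with rfl | hlt
      · rfl
      have hd := hanti i j hij hjn
      rw [hedef, hedef]
      by_cases hi : i = t ∨ i = l
      · rw [if_pos hi]
        by_cases hj : j = t ∨ j = l
        · rw [if_pos hj]; omega
        · rw [if_neg hj]
          rcases hi with rfl | rfl
          · rcases htspec with h | h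
            · have := hzero j (by omega) hjn
              omega
            · have := hanti (i + 1) j hlt hjn
              omega
          · have := hzero j (by omega) hjn
            omega
      · rw [if_neg hi]
        split_ifs <;> omega
    have hsum' : ∀ s : Finset ℕ, ∑ i ∈ s, d i =
        ∑ i ∈ s, e i + ((if t ∈ s then 1 else 0) + (if l ∈ s then 1 else 0)) := by
      intro s
      rw [← sum_ite_eq_one s t, ← sum_ite_eq_one s l, ← sum_add_distrib, ← sum_add_distrib]
      exact sum_congr rfl fun i _ => hde i
    have hT : ∀ k, ∑ i ∈ Ico k n, min (d i) k ≤ ∑ i ∈ Ico k n, min (e i) k +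
        ((if t ∈ Ico k n then 1 else 0) + (if l ∈ Ico k n then 1 else 0)) := by
      intro k
      rw [← sum_ite_eq_one (Ico k n) t, ← sum_ite_eq_one (Ico k n) l, ← sum_add_distrib,
        ← sum_add_distrib]
      refine sum_le_sum fun i _ => ?_
      have := hde i
      omega
    have hcond' : Cond n e := by
      intro k hk
      have hd := hcond k hk
      have hs := hsum' (range k)
      have hT' := hT k
      simp only [mem_range] at hs
      simp only [mem_Ico] at hT'
      by_cases hkt : t < k
      · rw [if_pos hkt] at hs
        rw [if_neg (fun h => absurd hkt (not_lt.2 h.1))] at hT'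
        by_cases hkl : l < k
        · rw [if_pos hkl] at hs
          rw [if_neg (fun h => absurd hkl (not_lt.2 h.1))] at hT'
          omega
        · rw [if_neg hkl] at hs
          rw [if_pos ⟨not_lt.1 hkl, by omega⟩] at hT'
          omega
      · push Not at hkt
        rcases Nat.eq_zero_or_pos k with rfl | hk0
        · simp
        have hSk : ∑ i ∈ range k, e i = k * d 0 := by
          rw [sum_congr rfl fun i hi => ?_, sum_const, card_range, smul_eq_mul]
          have := mem_range.1 hi
          rw [hedef, if_neg (by omega), hblock i (by omega)]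
        rw [hSk]
        rcases lt_trichotomy (d 0) k with hq | hq | hq
        · exact le_trans (Nat.mul_le_mul_left k (show d 0 ≤ k - 1 by omega)) (Nat.le_add_right _ _)
        · -- the block value is `k`
          have hgoal : k ≤ ∑ i ∈ Ico k n, min (e i) k := by
            by_cases hlt : k < t
            · refine le_trans ?_ (single_le_sum (fun i _ => Nat.zero_le _)
                (mem_Ico.2 ⟨le_rfl, by omega⟩ : k ∈ Ico k n))
              rw [hedef, if_neg (by omega), hblock k hlt.le, hq, Nat.min_self]
            · obtain rfl : k = t := by omega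
              have hsplit : min (e k) k + min (e (k + 1)) k ≤ ∑ i ∈ Ico k n, min (e i) k := by
                refine le_trans (le_of_eq ?_) (sum_le_sum_of_subset
                  (show ({k, k + 1} : Finset ℕ) ⊆ Ico k n by
                    intro x hx
                    simp only [mem_insert, mem_singleton] at hx
                    rw [mem_Ico]
                    omega))
                rw [sum_pair (by omega)]
              have hek : e k = k - 1 := by
                rw [hedef, if_pos (Or.inl rfl), hblock k le_rfl, hq]
              have hnext : 1 ≤ e (k + 1) := by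
                rw [hedef]
                by_cases hkl : k + 1 = l
                · rw [if_pos (Or.inr hkl)]
                  have htot : S = (k + 1) * k + d (k + 1) := by
                    rw [← hsum, ← sum_range_add_sum_Ico d (show k + 2 ≤ n by omega),
                      sum_range_succ, sum_congr rfl (fun i hi => by
                        rw [hblock i (Nat.lt_succ_iff.1 (mem_range.1 hi)), hq] :
                        ∀ i ∈ range (k + 1), d i = k), sum_const, card_range, smul_eq_mul,
                      sum_eq_zero (fun i hi => by
                        simp only [mem_Ico] at hi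
                        exact hzero i (by omega) hi.2), Nat.add_zero]
                  obtain ⟨p, hp⟩ := heven
                  obtain ⟨p', hp'⟩ := mul_pred_even k
                  have := hpos (k + 1) (by omega)
                  omega
                · rw [if_neg (by omega)]
                  exact hpos (k + 1) (by omega)
              omega
          obtain ⟨j, rfl⟩ := Nat.exists_eq_add_of_le hk0
          rw [hq, show Nat.succ 0 + j - 1 = j by omega]
          nlinarith
        · -- the block value exceeds `k`
          have hkmem : k ∈ Ico k n := mem_Ico.2 ⟨le_rfl, by omega⟩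
          by_cases hdl : k < d l
          · have heq : ∑ i ∈ Ico k n, min (d i) k = ∑ i ∈ Ico k n, min (e i) k := by
              refine sum_congr rfl fun i hi => ?_
              by_cases hit : i = t
              · subst hit
                rw [hedef, if_pos (Or.inl rfl), hblock i le_rfl]
                omega
              · by_cases hil : i = l
                · subst hil
                  rw [hedef, if_pos (Or.inr rfl)]
                  omega
                · rw [hedef, if_neg (by tauto)]
            rw [sum_congr rfl fun i hi => by
              rw [hblock i (by have := mem_range.1 hi; omega)], sum_const, card_range,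
              smul_eq_mul, heq] at hd
            exact hd
          · push Not at hdl
            -- equality is impossible
            have hstrict : k * d 0 < k * (k - 1) + ∑ i ∈ Ico k n, min (d i) k := by
              rw [sum_congr rfl fun i hi => by
                rw [hblock i (by have := mem_range.1 hi; omega)], sum_const, card_range,
                smul_eq_mul] at hd
              refine lt_of_le_of_ne hd fun heq => ?_
              let Big := (Ico k n).filter fun i => k < d i
              let Small := (Ico k n).filter fun i => ¬ k < d i
              have hsplit : ∀ c, ∑ i ∈ Ico k n, min (d i) c =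
                  ∑ i ∈ Big, min (d i) c + ∑ i ∈ Small, min (d i) c := fun c =>
                (sum_filter_add_sum_filter_not _ _ _).symm
              have hbig : ∑ i ∈ Big, min (d i) k = Big.card * k := by
                rw [sum_congr rfl fun i hi => min_eq_right (mem_filter.1 hi).2.le, sum_const,
                  smul_eq_mul]
              have hsmall : ∀ c, k ≤ c → ∑ i ∈ Small, min (d i) c = ∑ i ∈ Small, d i :=
                fun c hc => sum_congr rfl fun i hi => by
                  have := not_lt.1 (mem_filter.1 hi).2
                  omega
              have hDpos : 1 ≤ ∑ i ∈ Small, d i := by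
                refine le_trans (hpos l (by omega)) (single_le_sum (fun i _ => Nat.zero_le _) ?_)
                exact mem_filter.2 ⟨mem_Ico.2 ⟨by omega, by omega⟩, not_lt.2 hdl⟩
              have h1 : k * d 0 = k * (k - 1) + (Big.card * k + ∑ i ∈ Small, d i) := by
                rw [heq, hsplit, hbig, hsmall k le_rfl]
              have h2 := hcond (k + 1) (by omega)
              rw [sum_congr rfl fun i hi => by
                rw [hblock i (by have := mem_range.1 hi; omega)], sum_const, card_range,
                smul_eq_mul, Nat.add_sub_cancel] at h2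
              have h3 : (∑ i ∈ Ico (k + 1) n, min (d i) (k + 1)) + (k + 1) ≤
                  Big.card * (k + 1) + ∑ i ∈ Small, d i := by
                have e1 : ∑ i ∈ Ico k n, min (d i) (k + 1) =
                    (k + 1) + ∑ i ∈ Ico (k + 1) n, min (d i) (k + 1) := by
                  rw [sum_eq_sum_Ico_succ_bot (by omega), hblock k hkt,
                    min_eq_right (show k + 1 ≤ d 0 by omega)]
                have e2 : ∑ i ∈ Big, min (d i) (k + 1) ≤ Big.card * (k + 1) := by
                  rw [← smul_eq_mul, ← sum_const]
                  exact sum_le_sum fun i _ => min_le_right _ _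
                have e3 := hsplit (k + 1)
                rw [hsmall (k + 1) (by omega)] at e3
                omega
              exact not_equality hk0 hDpos h1 h2 h3
            have hge : ∑ i ∈ Ico k n, min (d i) k ≤ ∑ i ∈ Ico k n, min (e i) k + 1 := by
              rw [show (1 : ℕ) = if l ∈ Ico k n then 1 else 0 by
                rw [if_pos (mem_Ico.2 ⟨by omega, by omega⟩)], ← sum_ite_eq_one, ← sum_add_distrib]
              refine sum_le_sum fun i _ => ?_
              by_cases hit : i = t
              · subst hit
                rw [hedef, if_pos (Or.inl rfl), hblock i le_rfl]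
                omega
              · have := hde i
                rw [if_neg hit] at this
                omega
            omega
    have htot := hsum' (range n)
    rw [if_pos (mem_range.2 (by omega)), if_pos (mem_range.2 (by omega)), hsum] at htot
    obtain ⟨G, hG⟩ := ih (∑ i ∈ range n, e i) (by omega) e rfl (by
      rw [Nat.even_iff] at heven ⊢
      omega) hanti' hcond'
    obtain ⟨H, hH⟩ := exists_raise (G := G) (m := m) (t := ⟨t, by omega⟩) (l := ⟨l, by omega⟩)
      (fun h => by simp only [Fin.mk.injEq] at h; omega) (by simp only; omega)
      (by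
        rw [hG]
        simp only [hedef, true_or, if_true, hblock t le_rfl]
        omega) hmn
      (fun w hw hwt hwl => by
        rw [hG, hG]
        simp only [hedef, or_true, if_true]
        rw [if_neg (not_or.2 ⟨fun h => hwt (Fin.ext h), fun h => hwl (Fin.ext h)⟩)]
        have := hanti w.val l (by omega) (by omega)
        have := hpos l (by omega)
        omega)
    refine ⟨H, fun v => ?_⟩
    rw [hH, hG, hde v.val]
    simp only [Fin.ext_iff]
    omega

/-- **Erdős and Gallai**, necessity. -/
theorem cond_of_graph (G : SimpleGraph (Fin n)) (d : ℕ → ℕ) (hd : ∀ v, deg G v = d v.val) :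
    Even (∑ i ∈ range n, d i) ∧ Cond n d := by
  constructor
  · rw [← Fin.sum_univ_eq_sum_range, sum_congr rfl fun v _ => (hd v).symm]
    have := G.sum_degrees_eq_twice_card_edges
    refine ⟨G.edgeFinset.card, ?_⟩
    rw [← two_mul, ← this]
    refine sum_congr rfl fun v _ => ?_
    simp [deg, ← SimpleGraph.card_neighborFinset_eq_degree, SimpleGraph.neighborFinset_eq_filter]
  · intro k hk
    rw [← Fin.sum_univ_eq_sum_range (fun i => d i) k]
    let ι := Fin.castLE hk
    calc ∑ i : Fin k, d i.val
        = ∑ i : Fin k, ((univ.filter fun w => G.Adj (ι i) w ∧ w.val < k).card +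
            (univ.filter fun w => G.Adj (ι i) w ∧ ¬ w.val < k).card) := by
          refine sum_congr rfl fun i _ => ?_
          rw [← filter_filter, ← filter_filter, card_filter_add_card_filter_not]
          exact (hd (ι i)).symm
      _ = ∑ i : Fin k, (univ.filter fun w => G.Adj (ι i) w ∧ w.val < k).card +
            ∑ w : Fin n, (univ.filter fun i : Fin k => G.Adj (ι i) w ∧ ¬ w.val < k).card := by
          rw [sum_add_distrib]
          congr 1
          simp only [card_filter]
          exact sum_comm
      _ ≤ k * (k - 1) + ∑ i ∈ Ico k n, min (d i) k := by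
          refine Nat.add_le_add ?_ ?_
          · refine le_trans (sum_le_sum (g := fun _ => k - 1) fun i _ => ?_) (by simp)
            rw [show k - 1 = ((univ : Finset (Fin k)).erase i).card by simp]
            refine le_trans (card_le_card (t := ((univ : Finset (Fin k)).erase i).image ι) ?_)
              card_image_le
            intro w hw
            simp only [mem_filter, mem_univ, true_and] at hw
            refine mem_image.2 ⟨⟨w.val, hw.2⟩, mem_erase.2 ⟨fun e => hw.1.ne ?_, mem_univ _⟩, rfl⟩
            rw [← e]
            rfl
          · calc ∑ w : Fin n, (univ.filter fun i : Fin k => G.Adj (ι i) w ∧ ¬ w.val < k).card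
                ≤ ∑ w : Fin n, if k ≤ w.val then min (d w.val) k else 0 := by
                  refine sum_le_sum fun w _ => ?_
                  split_ifs with h
                  · refine le_min ?_ (le_trans (card_le_univ _) (by simp))
                    rw [← hd w]
                    refine le_trans (le_of_eq (card_image_of_injective _
                      (Fin.castLE_injective hk)).symm) (card_le_card fun x hx => ?_)
                    obtain ⟨i, hi, rfl⟩ := mem_image.1 hx
                    simpa using (mem_filter.1 hi).2.1.symm
                  · rw [filter_false_of_mem fun i _ hi => hi.2 (not_le.1 h)]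
                    simp
              _ = _ := by
                  rw [Fin.sum_univ_eq_sum_range fun i => if k ≤ i then min (d i) k else 0,
                    ← sum_filter]
                  refine sum_congr ?_ fun _ _ => rfl
                  ext x
                  simp only [mem_filter, mem_range, mem_Ico]
                  omega

end FA.DegreeSequence
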